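import Mathlib
import Fermat.Agent.LT.T7.H534.SpecDownSpec

/-!
# Row LT, tower T7, leaf T7.L2.3.3 `SD534.BCDataC` (helper966) -- OFF-MAIN

`bcDataC966 : Fermat.Agent.LT.T7.SD534.BCDataC K K'`, VERBATIM the Prop of
`LT/T7/H534/SpecDownSpec.lean` (helper534@756e78a11, sha256 3f1c4f486c3ea8a9).

Every eigen-datum `c` over `K` has a base change datum `C` over `K'` (outside any `S'`):
`C.a w`, `C.b w` are defined by a choice of `(v, f)` with `HasResDeg K K' v w f` (and `0` if
there is none), `C.m w d = c.m (w.comap (algebraMap K K')) d`.  The choice does not matter: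
`PlaceOver` determines `v` (an element of `𝓞 K` lies in `v` iff its image lies in `w`), and
`N w = (N v) ^ f` with `N v ≥ 2` determines `f`.
-/

set_option autoImplicit false
set_option linter.unusedSectionVars false

open AutomorphicForm IsDedekindDomain NumberField

noncomputable section

namespace Fermat.Agent.LT.T7.H966

open Fermat.Agent.LT.T7

variable {K K' : Type} [Field K] [NumberField K] [Field K'] [NumberField K'] [Algebra K K']

/-- The image in `𝓞 K'` of an element of `𝓞 K`. -/
theorem exists_image966 (x : 𝓞 K) : ∃ y : 𝓞 K', (y : K') = algebraMap K K' (x : K) := by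
  have hx : IsIntegral ℤ (x : K) := x.2
  have hy : IsIntegral ℤ (algebraMap K K' (x : K)) := hx.map (algebraMap K K').toIntAlgHom
  exact ⟨⟨algebraMap K K' (x : K), hy⟩, rfl⟩

/-- `PlaceOver` determines the place below. -/
theorem placeOver_unique966 {v v' : HeightOneSpectrum (𝓞 K)} {w : HeightOneSpectrum (𝓞 K')}
    (h : PlaceOver K K' v w) (h' : PlaceOver K K' v' w) : v = v' := by
  apply HeightOneSpectrum.ext
  ext x
  obtain ⟨y, hy⟩ := exists_image966 (K' := K') x
  rw [h x y hy, h' x y hy]

/-- The absolute norm of a finite place is at least `2`. -/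
theorem two_le_absNorm966 (v : HeightOneSpectrum (𝓞 K)) : 2 ≤ Ideal.absNorm v.asIdeal := by
  have h0 : Ideal.absNorm v.asIdeal ≠ 0 := by
    rw [Ne, Ideal.absNorm_eq_zero_iff]
    exact v.ne_bot
  have h1 : Ideal.absNorm v.asIdeal ≠ 1 := by
    rw [Ne, Ideal.absNorm_eq_one_iff]
    exact v.isPrime.ne_top
  omega

/-- `HasResDeg` determines the place below and the residue degree. -/
theorem hasResDeg_unique966 {v v' : HeightOneSpectrum (𝓞 K)} {w : HeightOneSpectrum (𝓞 K')}
    {f f' : ℕ} (h : HasResDeg K K' v w f) (h' : HasResDeg K K' v' w f') : v = v' ∧ f = f' := by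
  have hv : v = v' := placeOver_unique966 h.1 h'.1
  subst hv
  refine ⟨rfl, ?_⟩
  have hpow : Ideal.absNorm v.asIdeal ^ f = Ideal.absNorm v.asIdeal ^ f' := by
    rw [← h.2, ← h'.2]
  exact Nat.pow_right_injective (two_le_absNorm966 v) hpow

/-- The places below `w` with their residue degrees, as pairs. -/
def BelowPair966 (K K' : Type) [Field K] [NumberField K] [Field K'] [NumberField K']
    [Algebra K K'] (w : HeightOneSpectrum (𝓞 K')) : Prop :=
  ∃ p : HeightOneSpectrum (𝓞 K) × ℕ, HasResDeg K K' p.1 w p.2

open Classical in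
/-- The chosen pair (place below, residue degree) of `w`, if there is one. -/
def below966 (K : Type) {K' : Type} [Field K] [NumberField K] [Field K'] [NumberField K']
    [Algebra K K'] (w : HeightOneSpectrum (𝓞 K')) :
    Option (HeightOneSpectrum (𝓞 K) × ℕ) :=
  if h : BelowPair966 K K' w then some h.choose else none

theorem below966_eq {v : HeightOneSpectrum (𝓞 K)} {w : HeightOneSpectrum (𝓞 K')} {f : ℕ}
    (h : HasResDeg K K' v w f) : below966 K w = some (v, f) := by
  have hex : BelowPair966 K K' w := ⟨(v, f), h⟩
  have hsp : HasResDeg K K' hex.choose.1 w hex.choose.2 := hex.choose_spec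
  obtain ⟨hv, hf⟩ := hasResDeg_unique966 hsp h
  have hp : hex.choose = (v, f) := Prod.ext hv hf
  simp only [below966, dif_pos hex, hp]

/-- The base change datum of `c`. -/
def bcData966 (c : EigData K) : EigData K' where
  a := fun w =>
    match below966 K w with
    | some p => satakePow p.2 (c.a p.1) (c.b p.1)
    | none => 0
  b := fun w =>
    match below966 K w with
    | some p => c.b p.1 ^ p.2
    | none => 0
  m := fun w d => c.m (w.comap (algebraMap K K')) d

/-- The base change datum is a base change datum, outside every `S'`. -/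
theorem isBCData_bcData966 (c : EigData K) (S' : Finset (HeightOneSpectrum (𝓞 K'))) :
    IsBCData c (bcData966 (K' := K') c) S' := by
  refine ⟨?_, fun w d => rfl⟩
  intro w _ v f hvf
  have hb := below966_eq hvf
  constructor
  · simp only [bcData966, hb]
  · simp only [bcData966, hb]

/-- **LEAF T7.L2.3.3 `SD534.BCDataC`.** -/
theorem bcDataC966 (K K' : Type) [Field K] [NumberField K] [Field K'] [NumberField K']
    [Algebra K K'] : Fermat.Agent.LT.T7.SD534.BCDataC K K' := by
  intro S' c
  exact ⟨bcData966 c, isBCData_bcData966 c S'⟩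

end Fermat.Agent.LT.T7.H966
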